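import Mathlib.RingTheory.RingHom.StandardSmooth
import Mathlib.Tactic

/-!
# Standard smooth algebras over a field: reducedness and transcendence degree
-/

set_option autoImplicit false

universe u

noncomputable section

open TensorProduct

namespace Fermat.Agent.AbVar

section Etale

variable (P S : Type u) [CommRing P] [CommRing S] [Algebra P S] [Algebra.Etale P S]

theorem includeRight_fractionRing_injective :
    Function.Injective (Algebra.TensorProduct.includeRight : S →ₐ[P] FractionRing P ⊗[P] S) :=
  Algebra.TensorProduct.includeRight_injective (IsFractionRing.injective P (FractionRing P))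

include P in
theorem isReduced_of_etale_of_isDomain [IsDomain P] : IsReduced S := by
  have := Algebra.FormallyUnramified.isReduced_of_field (FractionRing P) (FractionRing P ⊗[P] S)
  exact isReduced_of_injective (Algebra.TensorProduct.includeRight : S →ₐ[P] FractionRing P ⊗[P] S)
    (includeRight_fractionRing_injective P S)

theorem isAlgebraic_of_etale_of_isDomain [IsDomain P] : Algebra.IsAlgebraic P S := by
  let F := FractionRing P
  have : Module.Finite F (F ⊗[P] S) := Algebra.FormallyUnramified.finite_of_free F (F ⊗[P] S)
  refine ⟨fun s => ?_⟩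
  have h1 : IsIntegral F ((1 : F) ⊗ₜ[P] s) := Algebra.IsIntegral.isIntegral _
  have h2 : IsAlgebraic P ((1 : F) ⊗ₜ[P] s) :=
    (IsFractionRing.isAlgebraic_iff P F (F ⊗[P] S)).mpr h1.isAlgebraic
  exact (isAlgebraic_algHom_iff (Algebra.TensorProduct.includeRight : S →ₐ[P] F ⊗[P] S)
    (includeRight_fractionRing_injective P S)).mp h2

theorem algebraMap_injective_of_etale [IsDomain P] [Nontrivial S] :
    Function.Injective (algebraMap P S) := by
  rw [injective_iff_map_eq_zero]
  intro p hp
  by_contra hp0
  have h := includeRight_fractionRing_injective P S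
  have h1 : ((algebraMap P (FractionRing P)) p) ⊗ₜ[P] (1 : S) = 0 := by
    rw [show (algebraMap P (FractionRing P)) p = p • (1 : FractionRing P) by
      rw [Algebra.smul_def, mul_one], TensorProduct.smul_tmul, Algebra.smul_def, hp, zero_mul,
      TensorProduct.tmul_zero]
  have h2 : ((1 : FractionRing P) ⊗ₜ[P] (1 : S)) = 0 := by
    have := congr((((algebraMap P (FractionRing P)) p)⁻¹ ⊗ₜ[P] (1 : S)) * $h1)
    rwa [mul_zero, Algebra.TensorProduct.tmul_mul_tmul, inv_mul_cancel₀ (by
      simpa using hp0), one_mul] at this
  exact one_ne_zero (h (a₁ := 1) (a₂ := 0) (by simpa using h2))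

end Etale

/-- A standard smooth algebra over a field is reduced. -/
theorem isReduced_of_standardSmooth (K S : Type u) [Field K] [CommRing S] [Algebra K S]
    [hS : Algebra.IsStandardSmooth K S] : IsReduced S := by
  obtain ⟨ι, σ, hσ, hι, ⟨P⟩⟩ := hS.out
  have : Algebra.IsStandardSmoothOfRelativeDimension P.dimension K S :=
    ⟨⟨ι, σ, inferInstance, inferInstance, P, rfl⟩⟩
  obtain ⟨φ, hφ⟩ :=
    Algebra.IsStandardSmoothOfRelativeDimension.exists_etale_mvPolynomial (n := P.dimension) K S
  let := φ.toRingHom.toAlgebra
  have : Algebra.Etale (MvPolynomial (Fin P.dimension) K) S := hφ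
  exact isReduced_of_etale_of_isDomain (MvPolynomial (Fin P.dimension) K) S

theorem trdeg_of_standardSmooth (K S : Type u) [Field K] [CommRing S] [IsDomain S] [Algebra K S]
    (n : ℕ) [Algebra.IsStandardSmoothOfRelativeDimension n K S] : Algebra.trdeg K S = n := by
  obtain ⟨φ, hφ⟩ := Algebra.IsStandardSmoothOfRelativeDimension.exists_etale_mvPolynomial
    (n := n) K S
  let := φ.toRingHom.toAlgebra
  have : Algebra.Etale (MvPolynomial (Fin n) K) S := hφ
  have : IsScalarTower K (MvPolynomial (Fin n) K) S := .of_algebraMap_eq' φ.comp_algebraMap.symm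
  have := isAlgebraic_of_etale_of_isDomain (MvPolynomial (Fin n) K) S
  have : FaithfulSMul (MvPolynomial (Fin n) K) S :=
    (faithfulSMul_iff_algebraMap_injective _ _).mpr (algebraMap_injective_of_etale _ _)
  rw [← trdeg_add_eq K (MvPolynomial (Fin n) K) (A := S),
    trdeg_eq_zero (R := MvPolynomial (Fin n) K) (A := S),
      add_zero,
    MvPolynomial.trdeg_of_isDomain, Cardinal.mk_fin, Cardinal.lift_natCast]

/-- The fraction field of a standard smooth domain of dimension `n` has transcendence degree `n`. -/
theorem trdeg_fractionRing_of_standardSmooth (K S L : Type u) [Field K] [CommRing S] [IsDomain S]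
    [Field L] [Algebra K S] [Algebra S L] [Algebra K L] [IsScalarTower K S L] [IsFractionRing S L]
    (n : ℕ) [Algebra.IsStandardSmoothOfRelativeDimension n K S] : Algebra.trdeg K L = n := by
  have : Algebra.IsAlgebraic S L := IsLocalization.isAlgebraic L (nonZeroDivisors S)
  rw [← trdeg_add_eq K S (A := L), trdeg_eq_zero (R := S) (A := L), add_zero,
    trdeg_of_standardSmooth K S n]

end Fermat.Agent.AbVar
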